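import Fermat.Agent.BAD.NewRep.TameRel
import Fermat.Agent.BAD.GalMat
import Fermat.Agent.Lifting.PointForm
import Fermat.Agent.Lifting.UnramifiedOldOf
import Fermat.Agent.MF.Mult.Main
import Fermat.Agent.HM.Newform

/-!
# The representation of a newform at a prime exactly dividing the level

Inertia at `q` acts by nontrivial unipotents: a trivial action would make the eigensystem old, which
strong multiplicity one forbids. The tame relation and the determinant give the trace `± (q + 1)`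
at Frobenius elements.
-/

set_option autoImplicit false

noncomputable section

open scoped MatrixGroups Matrix
open CongruenceSubgroup IsLocalRing ModularFormClass Polynomial

namespace FermatAgent.BAD.NewRep

open Assembly (ZC)
open Lifting (charZC IsSystemOf)

local notation "GQ" => AlgebraicClosure ℚ ≃ₐ[ℚ] AlgebraicClosure ℚ

/-- A newform is not old at a prime exactly dividing the level, up to finitely many primes. -/
theorem not_old {N q : ℕ} [NeZero N] (hq : q.Prime) (hqN : q ∣ N) (hq2 : ¬ q ^ 2 ∣ N)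
    {f : CuspForm (Gamma0 N) 2} (hf : f.IsNewform) {g : CuspForm (Gamma0 (N / q)) 2}
    (hg : g.IsNormalizedEigenform) (S : Finset ℕ) :
    ¬ ∀ ℓ : ℕ, ℓ.Prime → ℓ ∉ S → ¬ ℓ ∣ N → qCoeff g ℓ = qCoeff f ℓ := by
  intro h
  have hsq := (HM.newformBadPrimeCoeff N f hf q hq hqN).1 hq2
  obtain ⟨L, rfl⟩ : ∃ L, N = L * q := ⟨N / q, (Nat.div_mul_cancel hqN).symm⟩
  have : NeZero L := ⟨fun h0 => NeZero.ne (L * q) (by rw [h0, zero_mul])⟩
  have hqL : ¬ q ∣ L := fun hd => hq2 (by rw [pow_two]; exact Nat.mul_dvd_mul_right hd q)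
  obtain ⟨g', hg', hgg⟩ : ∃ g' : CuspForm (Gamma0 L) 2, g'.IsNormalizedEigenform ∧
      ∀ n, qCoeff g' n = qCoeff g n := by
    have e : L * q / q = L := Nat.mul_div_cancel _ hq.pos
    revert g
    rw [e]
    intro g' hg' _
    exact ⟨g', hg', fun _ => rfl⟩
  exact MF.Mult.qCoeff_sq_ne_one hq hqL hg' hf.1 S
    (fun ℓ hℓ hS hℓN => by rw [hgg, h ℓ hℓ hS hℓN]) hsq

variable {p : ℕ} [Fact p.Prime] {N : ℕ} [NeZero N] {B : Type} [CommRing B] [IsDomain B]
  [IsDiscreteValuationRing B] [CharZero B]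

/-- Inertia at a prime exactly dividing the level is unipotent on the eigenlattice. -/
theorem eigMat_unipotent (ι : ℤ_[p] →+* B) (χ : CuspForm.heckeAlgebra N 2 ∅ →+* B) {q : ℕ}
    (hq : q.Prime) (hqN : q ∣ N) (hq2 : ¬ q ^ 2 ∣ N) (hqp : q ≠ p)
    {A : ValuationSubring (AlgebraicClosure ℚ)} (hA : A.LiesOverPrime q) {τ : GQ}
    (hτ : τ ∈ A.inertiaSubgroupIn ℚ) :
    (ES.eigMat ι χ τ - 1) * (ES.eigMat ι χ τ - 1) = 0 := by
  set F : Module.End B (ES.eigLat χ) ≃ₐ[B] Matrix (Fin 2) (Fin 2) B :=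
    LinearMap.toMatrixAlgEquiv (ES.eigBasis χ)
  have key : (ES.eigEnd ι χ τ - 1) * (ES.eigEnd ι χ τ - 1) = 0 := LinearMap.ext fun v =>
    Subtype.ext (by
      have h := congrArg (fun X => X.map ι *ᵥ (v.1 : Fin _ → B))
        (galMat_unipotent p hq hqN hq2 hqp hA hτ)
      simp only [sq, Matrix.map_mul, Matrix.map_sub ι (map_sub ι),
        Matrix.map_one _ (map_zero ι) (map_one ι), Matrix.map_zero _ (map_zero ι),
        Matrix.zero_mulVec, ← Matrix.mulVec_mulVec, Matrix.sub_mulVec, Matrix.one_mulVec] at h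
      simp only [Module.End.mul_apply, LinearMap.sub_apply, Module.End.one_apply,
        Submodule.coe_sub, ES.coe_eigEnd, LinearMap.zero_apply, Submodule.coe_zero]
      exact h)
  have h := congrArg F key
  rw [map_mul, map_zero] at h
  have e : F (ES.eigEnd ι χ τ - 1) = F (ES.eigEnd ι χ τ) - 1 :=
    (map_sub F (ES.eigEnd ι χ τ) 1).trans (congrArg _ (map_one F))
  rw [e] at h
  exact h

variable [IsAdicComplete (maximalIdeal B) B] [Finite (ResidueField B)]

omit [IsAdicComplete (maximalIdeal B) B] in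
/-- **The trace at Frobenius of a newform at a prime `q ∥ N`, `q ≠ p`, is
`± (q + 1)`**. -/
theorem trace_frobenius_of_new (hpm : (p : B) ∈ maximalIdeal B) (ι : ℤ_[p] →+* B)
    (χ : CuspForm.heckeAlgebra N 2 ∅ →+* B) {f : CuspForm (Gamma0 N) 2} (hf : f.IsNewform)
    (hχ : IsSystemOf hf.1 χ) {q : ℕ} (hq : q.Prime)
    (hqN : q ∣ N) (hq2 : ¬ q ^ 2 ∣ N) (hqp : q ≠ p)
    {A : ValuationSubring (AlgebraicClosure ℚ)} (hA : A.LiesOverPrime q) {F : GQ}
    (hF : A.IsFrobeniusAt F q) :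
    (ES.eigMat ι χ F).trace = (q : B) + 1 ∨ (ES.eigMat ι χ F).trace = -((q : B) + 1) := by
  obtain ⟨τ, hτ, hτ1⟩ : ∃ τ ∈ A.inertiaSubgroupIn ℚ, ES.eigEnd ι χ τ ≠ 1 := by
    by_contra! hI
    obtain ⟨g, S, hg, hagree⟩ :=
      Lifting.old_of_inertia_trivial hq hqN hq2 hqp hpm ι χ hf.1 hχ hA hI
    exact not_old hq hqN hq2 hf hg S hagree
  have hd : (ES.eigMat ι χ F).det = (q : B) := by
    rw [ES.det_eigMat ι χ hpm, ES.padCyclo_frobenius p hq hqp hA hF, map_natCast]
  refine trace_of_conj (N := ES.eigMat ι χ τ - 1) hq.one_lt (sub_ne_zero.mpr fun h => hτ1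
    ((LinearMap.toMatrixAlgEquiv (ES.eigBasis χ)).injective (h.trans (map_one _).symm))) ?_ hd
  exact frob_conj_inertia hpm (ES.eigMat ι χ)
    (fun k => by
      obtain ⟨L, hL, hfix⟩ := ES.eigMat_continuous ι χ hpm k
      exact ⟨L, hL, fun g hg => (hfix g hg).1⟩)
    hq hA hqp (fun s hs => eigMat_unipotent ι χ hq hqN hq2 hqp hA hs) hF hτ

omit [IsAdicComplete (maximalIdeal B) B] in
/-- The characteristic polynomial at Frobenius of a newform at a prime `q ∥ N`, `q ≠ p`, is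
`X² ∓ (q + 1) X + q`. -/
theorem charpoly_frobenius_of_new (hpm : (p : B) ∈ maximalIdeal B)
    (ι : ℤ_[p] →+* B) (χ : CuspForm.heckeAlgebra N 2 ∅ →+* B) {f : CuspForm (Gamma0 N) 2}
    (hf : f.IsNewform) (hχ : IsSystemOf hf.1 χ) {q : ℕ}
    (hq : q.Prime) (hqN : q ∣ N) (hq2 : ¬ q ^ 2 ∣ N) (hqp : q ≠ p)
    {A : ValuationSubring (AlgebraicClosure ℚ)} (hA : A.LiesOverPrime q) {F : GQ}
    (hF : A.IsFrobeniusAt F q) :
    LinearMap.charpoly ((ES.eigRep ι χ hpm).ρ F) = X ^ 2 - C ((q : B) + 1) * X + C ((q : B)) ∨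
      LinearMap.charpoly ((ES.eigRep ι χ hpm).ρ F) =
        X ^ 2 + C ((q : B) + 1) * X + C ((q : B)) := by
  show LinearMap.charpoly (ES.eigEnd ι χ F) = _ ∨ LinearMap.charpoly (ES.eigEnd ι χ F) = _
  rw [ES.charpoly_eigEnd ι χ hpm, ES.padCyclo_frobenius p hq hqp hA hF, map_natCast]
  rcases trace_frobenius_of_new hpm ι χ hf hχ hq hqN hq2 hqp hA hF with h | h
  · exact Or.inl (by rw [h])
  · exact Or.inr (by rw [h, C_neg]; ring)

/-- **The representation of a newform over an extension of a given coefficient ring.** For a newform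
`g` of level `M` and values `iota` of its Hecke character in `O'`, some finite extension `O''` of
`O'` carries the eigensystem `χ` of `g`, and the representation on its eigenlattice has
characteristic polynomial `X² - a_ℓ X + ℓ` at the primes `ℓ ∤ M` outside `S`. -/
theorem exists_eigRep_model {M : ℕ} [NeZero M] {g : CuspForm (Gamma0 M) 2}
    (hg : g.IsNewform) (lam : ℕ) [Fact lam.Prime] (S : Finset ℕ)
    (O' : Type) [CommRing O'] [IsDomain O'] [IsDiscreteValuationRing O']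
    [IsAdicComplete (maximalIdeal O') O'] [Finite (ResidueField O')] [CharZero O']
    (hlamO' : (lam : O') ∈ maximalIdeal O')
    (chig : CuspForm.heckeAlgebra M 2 (↑S : Set ℕ) →+* ℂ)
    (hchig : ∀ (ℓ : ℕ) (hℓ : ℓ.Prime) (hℓM : ¬ ℓ ∣ M) (hℓS : ℓ ∉ (↑S : Set ℕ)),
      chig (CuspForm.heckeAlgebra.T hℓ hℓM hℓS) = qCoeff g ℓ)
    (iota : chig.range →+* O') (hlamS : lam ∈ S) :
    ∃ (O'' : Type) (_ : CommRing O'') (_ : IsDomain O'') (_ : IsDiscreteValuationRing O'')
      (_ : IsAdicComplete (maximalIdeal O'') O'') (_ : Finite (ResidueField O''))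
      (_ : CharZero O'') (_ : Algebra O' O'') (_ : Module.Finite O' O'')
      (_ : IsLocalHom (algebraMap O' O'')),
      Function.Injective (algebraMap O' O'') ∧
      ∃ (ι : ℤ_[lam] →+* O'') (χ : CuspForm.heckeAlgebra M 2 ∅ →+* O'')
        (hp : (lam : O'') ∈ maximalIdeal O''),
        IsSystemOf hg.1 χ ∧
          (∀ (ℓ : ℕ) (hℓ : ℓ.Prime) (hℓM : ¬ ℓ ∣ M) (hℓS : ℓ ∉ (↑S : Set ℕ)),
            ∀ A : ValuationSubring (AlgebraicClosure ℚ), A.LiesOverPrime ℓ →
              ∀ σ : GQ, A.IsFrobeniusAt σ ℓ →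
                LinearMap.charpoly ((ES.eigRep ι χ hp).ρ σ) =
                  X ^ 2 - C (algebraMap O' O'' ((iota.comp chig.rangeRestrict)
                    (CuspForm.heckeAlgebra.T hℓ hℓM hℓS))) * X + C ((ℓ : O''))) := by
  classical
  set F := FractionRing O'
  set Ω := AlgebraicClosure F
  have : FaithfulSMul O' Ω := (faithfulSMul_iff_algebraMap_injective O' Ω).mpr (by
    rw [IsScalarTower.algebraMap_eq O' F Ω]
    exact (algebraMap F Ω).injective.comp (IsFractionRing.injective O' _))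
  have : CharZero Ω := charZero_of_injective_algebraMap (FaithfulSMul.algebraMap_injective O' Ω)
  -- the values of the character are algebraic integers
  have hint : ∀ x : chig.range, IsIntegral ℤ (x : ℂ) := by
    rintro ⟨_, t, rfl⟩
    have := MF.moduleFinite_heckeAlgebra M 2 (↑S : Set ℕ)
    exact map_isIntegral_int _ (IsIntegral.of_finite ℤ t)
  let i : chig.range →+* ZC := chig.range.subtype.codRestrict ZC hint
  let : Algebra chig.range ZC := i.toAlgebra
  have : Algebra.IsIntegral chig.range ZC := Algebra.IsIntegral.tower_top (R := ℤ)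
  have hi : Function.Injective (algebraMap chig.range ZC) := fun x y h =>
    Subtype.ext (congrArg Subtype.val h : (_ : ℂ) = _)
  obtain ⟨σ, hσ⟩ := ES.exists_ringHom_extend hi ((algebraMap O' Ω).comp iota)
  set χΩ : CuspForm.heckeAlgebra M 2 ∅ →+* Ω := σ.comp (charZC hg.1)
  have := MF.moduleFinite_heckeAlgebra M 2 ∅
  obtain ⟨O'', i1, i2, i3, i4, i5, i6, i7, i8, i9, hinj, hp'', ⟨ι⟩, χ, j, hj, hjχ⟩ :=
    ES.exists_finite_model O' hlamO' χΩ
  refine ⟨O'', i1, i2, i3, i4, i5, i6, i7, i8, i9, hinj, ι, χ, hp'',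
    ⟨Ω, inferInstance, inferInstance, inferInstance, j, σ, hj, hjχ⟩, ?_⟩
  intro ℓ hℓ hℓM hℓS A hA τ hτ
  rw [ES.charpoly_eigRep_frobenius ι χ hp'' hℓ hℓM (fun h => hℓS (h ▸ hlamS)) hA hτ]
  congr 4
  refine hj ?_
  have ha : charZC hg.1 ⟨_, MF.heckeAt_mem hℓ (Set.notMem_empty ℓ)⟩ =
      algebraMap chig.range ZC (chig.rangeRestrict (CuspForm.heckeAlgebra.T hℓ hℓM hℓS)) :=
    Subtype.ext ((((MF.isEigen_iff_isNormalizedEigenform g).mpr hg.1).char_heckeAt hℓ
      (Set.notMem_empty ℓ)).trans (hchig ℓ hℓ hℓM hℓS).symm)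
  rw [hjχ, j.commutes]
  show σ (charZC hg.1 _) = algebraMap O' Ω _
  rw [ha, ← RingHom.comp_apply, hσ]
  rfl

end FermatAgent.BAD.NewRep

end
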