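import Fermat.Agent.RT.Tame

/-!
# The tame relation for unipotent inertia in characteristic zero

If inertia at `q` acts by matrices `1 + N` with `N ^ 2 = 0`, a Frobenius `F` satisfies
`F N = q N F`; when some `N` is nonzero and `det F = q` the trace of `F` is `± (q + 1)`.
-/

set_option autoImplicit false

noncomputable section

open IsLocalRing FermatAgent.GaloisBasic FermatAgent.Mazur

namespace FermatAgent.BAD.NewRep

variable {A : ValuationSubring Qbar} {q p : ℕ} {H : Type*} [Group H] [Finite H] (ρ : GQ →* H)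

/-- The tame relation at every element of inertia. -/
theorem map_frob_conj_pow [hp : Fact p.Prime] (hq : q.Prime) (hA : A.LiesOverPrime q)
    (hpq : q ≠ p) (hρ : IsOpen (ρ.ker : Set GQ))
    (hP : IsPGroup p ((A.inertiaSubgroupIn ℚ).map ρ)) {F : GQ} (hF : A.IsFrobeniusAt F q)
    {σ : GQ} (hσ : σ ∈ A.inertiaSubgroupIn ℚ) : ρ F * ρ σ = ρ σ ^ q * ρ F := by
  classical
  set P := (A.inertiaSubgroupIn ℚ).map ρ with hPdef
  by_cases hex : ∃ f : P →* Multiplicative (ZMod p), f ≠ 1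
  · obtain ⟨f, hf⟩ := hex
    obtain ⟨τ, hτ, hfτ⟩ : ∃ τ, ∃ h : τ ∈ A.inertiaSubgroupIn ℚ, f ⟨ρ τ, τ, h, rfl⟩ ≠ 1 := by
      by_contra hno
      push Not at hno
      refine hf (MonoidHom.ext ?_)
      rintro ⟨_, τ, hτ, rfl⟩
      exact hno τ hτ
    have : NeZero p := ⟨hp.out.ne_zero⟩
    let e : Multiplicative (ZMod p) ≃* rootsOfUnity p Qbar := mulEquivOfPrimeCardEq
      (by rw [Nat.card_congr Multiplicative.toAdd, Nat.card_zmod]) (RT.card_rootsOfUnity_qbar p)
    obtain ⟨φ, hφ, hφ1, hφ2, hφ3⟩ := RT.exists_char_of_hom ρ (e.toMonoidHom.comp f)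
    have hgen : RT.IsTameGen A p τ := ⟨hτ, φ, hφ1, hφ2, ⟨ρ.ker, hρ, hφ3⟩,
      fun h => hfτ (e.injective (by
        rw [map_one]
        exact Subtype.ext (Units.ext ((hφ τ hτ).symm.trans h))))⟩
    have hrel : SemiconjBy (ρ F) (ρ τ) (ρ τ ^ q) :=
      RT.map_frob_conj_eq_pow ρ hq hA hpq hρ hP hgen hF
    obtain ⟨j, hj⟩ : ∃ j : ℤ, ρ τ ^ j = ρ σ := Subgroup.mem_zpowers_iff.mp
      (RT.map_inertia_eq_zpowers ρ hq hA hpq hρ hP hgen ▸ (⟨σ, hσ, rfl⟩ : ρ σ ∈ P))
    have h := hrel.zpow_right j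
    rw [hj] at h
    rw [h.eq, ← hj, ← zpow_natCast, ← zpow_natCast, ← zpow_mul, ← zpow_mul, mul_comm j]
  · push Not at hex
    have htop := RT.zpowers_eq_top_of_forall_hom hP (1 : P) fun f _ => hex f
    rw [Subgroup.zpowers_one_eq_bot] at htop
    have h1 : ρ σ = 1 := by
      have : (⟨ρ σ, σ, hσ, rfl⟩ : P) ∈ (⊥ : Subgroup P) := htop ▸ Subgroup.mem_top _
      exact congrArg Subtype.val (Subgroup.mem_bot.mp this)
    rw [h1, one_pow, mul_one, one_mul]

theorem one_add_pow_of_sq {R : Type*} [Ring R] {x : R} (hx : (x - 1) * (x - 1) = 0) (n : ℕ) :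
    x ^ n = 1 + n • (x - 1) := by
  induction n with
  | zero => simp
  | succ n ih =>
    rw [pow_succ, ih, succ_nsmul, add_mul, one_mul, smul_mul_assoc,
      show (x - 1) * x = x - 1 by linear_combination (norm := noncomm_ring) hx]
    abel

variable {O : Type} [CommRing O] [IsDomain O] [IsDiscreteValuationRing O] [Finite (ResidueField O)]
  [hp : Fact p.Prime] (hpm : (p : O) ∈ maximalIdeal O) (R : GQ →* Matrix (Fin 2) (Fin 2) O)

include hpm in
/-- **`F N = q N F`.** -/
theorem frob_conj_inertia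
    (hcont : ∀ k, ∃ L : IntermediateField ℚ (AlgebraicClosure ℚ), FiniteDimensional ℚ L ∧
      ∀ g ∈ L.fixingSubgroup, (Ideal.Quotient.mk (maximalIdeal O ^ k)).mapMatrix (R g) = 1)
    (hq : q.Prime) (hA : A.LiesOverPrime q) (hqp : q ≠ p)
    (hu : ∀ τ ∈ A.inertiaSubgroupIn ℚ, (R τ - 1) * (R τ - 1) = 0) {F : GQ}
    (hF : A.IsFrobeniusAt F q) {τ : GQ} (hτ : τ ∈ A.inertiaSubgroupIn ℚ) :
    R F * (R τ - 1) = q • ((R τ - 1) * R F) := by
  refine sub_eq_zero.mp (Matrix.ext fun i j => ?_)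
  show (R F * (R τ - 1) - q • ((R τ - 1) * R F)) i j = 0
  rw [← Ideal.mem_bot, ← Ideal.iInf_pow_eq_bot_of_isLocalRing (maximalIdeal O)
    (maximalIdeal.isMaximal O).ne_top, Ideal.mem_iInf]
  intro k
  set mk := (Ideal.Quotient.mk (maximalIdeal O ^ k)).mapMatrix (m := Fin 2)
  have : Finite (O ⧸ maximalIdeal O) := (inferInstance : Finite (ResidueField O))
  have : Finite (O ⧸ maximalIdeal O ^ k) := Ideal.finite_quotient_pow (IsNoetherian.noetherian _) k
  have : Finite (Matrix (Fin 2) (Fin 2) (O ⧸ maximalIdeal O ^ k))ˣ := inferInstance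
  set ρ := (mk.toMonoidHom.comp R).toHomUnits
  have hval : ∀ g, (ρ g : Matrix (Fin 2) (Fin 2) (O ⧸ maximalIdeal O ^ k)) = mk (R g) :=
    fun g => rfl
  obtain ⟨L, hL, hfix⟩ := hcont k
  have := hL
  have hker : IsOpen (ρ.ker : Set GQ) :=
    Subgroup.isOpen_mono (fun g hg => MonoidHom.mem_ker.mpr (Units.ext (hfix g hg)))
      L.fixingSubgroup_isOpen
  have hsq : ∀ g ∈ A.inertiaSubgroupIn ℚ, (mk (R g) - 1) * (mk (R g) - 1) = 0 := fun g hg => by
    rw [← map_one mk, ← map_sub, ← map_mul, hu g hg, map_zero]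
  have hP : IsPGroup p ((A.inertiaSubgroupIn ℚ).map ρ) := by
    rintro ⟨_, g, hg, rfl⟩
    refine ⟨k, Subtype.ext (Units.ext ?_)⟩
    rw [SubmonoidClass.coe_pow, OneMemClass.coe_one, Units.val_pow_eq_pow_val, Units.val_one, hval,
      one_add_pow_of_sq (hsq g hg), add_eq_left, ← Nat.cast_smul_eq_nsmul (O ⧸ maximalIdeal O ^ k),
      Nat.cast_pow, ← map_natCast (Ideal.Quotient.mk (maximalIdeal O ^ k)), ← map_pow,
      Ideal.Quotient.eq_zero_iff_mem.mpr (Ideal.pow_mem_pow hpm k), zero_smul]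
  have h := congrArg Units.val (map_frob_conj_pow ρ hq hA hqp hker hP hF hτ)
  rw [Units.val_mul, Units.val_mul, Units.val_pow_eq_pow_val, hval, hval,
    one_add_pow_of_sq (hsq τ hτ), add_mul, one_mul, smul_mul_assoc] at h
  have h2 : mk (R F * (R τ - 1) - q • ((R τ - 1) * R F)) = 0 := by
    rw [map_sub, map_mul, map_nsmul, map_mul, map_sub, map_one, mul_sub, mul_one, h]
    abel
  exact Ideal.Quotient.eq_zero_iff_mem.mp (congrFun (congrFun h2 i) j)

omit [IsDiscreteValuationRing O] [Finite (ResidueField O)] in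
/-- A matrix of determinant `q` scaling a nonzero square-zero matrix by `q` has trace
`± (q + 1)`. -/
theorem trace_of_conj [CharZero O] {F N : Matrix (Fin 2) (Fin 2) O} (hq : 1 < q)
    (hN : N ≠ 0) (h : F * N = q • (N * F)) (hd : F.det = (q : O)) :
    F.trace = (q : O) + 1 ∨ F.trace = -((q : O) + 1) := by
  set t := F.trace
  have hq0 : (q : O) ≠ 0 := Nat.cast_ne_zero.mpr (by omega)
  have hq1 : (1 : O) - q ≠ 0 := sub_ne_zero.mpr fun h1 => by
    have : (q : ℕ) = 1 := by exact_mod_cast h1.symm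
    omega
  have hCH : F * F = t • F - (q : O) • 1 := by
    ext i j
    rw [Matrix.det_fin_two] at hd
    fin_cases i <;> fin_cases j <;>
      simp [t, Matrix.trace_fin_two, Matrix.mul_apply, Fin.sum_univ_two] <;>
      first
        | linear_combination hd
        | linear_combination -hd
        | ring
  rw [← Nat.cast_smul_eq_nsmul O] at h
  have hFFN : F * F * N = ((q : O) * q) • (N * (F * F)) := by
    rw [mul_assoc, h, Matrix.mul_smul, ← mul_assoc, h, Matrix.smul_mul, smul_smul, mul_assoc]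
  have e1 : (t * (q * (1 - q))) • (N * F) = ((1 + (q : O)) * (q * (1 - q))) • N := by
    rw [hCH, sub_mul, mul_sub, smul_mul_assoc, smul_mul_assoc, mul_smul_comm,
      mul_smul_comm, one_mul, mul_one, h, smul_sub, smul_smul, smul_smul, smul_smul] at hFFN
    have := sub_eq_zero.mpr hFFN
    rw [← sub_eq_zero, ← this]
    module
  have e2 : t • (N * F) = (1 + (q : O)) • N := by
    refine smul_right_injective _ (mul_ne_zero hq0 hq1) ?_
    show ((q : O) * (1 - q)) • _ = ((q : O) * (1 - q)) • _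
    rw [smul_smul, smul_smul, mul_comm _ t, mul_comm _ (1 + (q : O)), e1]
  have e3 : (t * t) • (N * (F * F)) = ((1 + (q : O)) * (1 + q)) • N := by
    rw [← mul_assoc, mul_smul, ← smul_mul_assoc, e2, smul_mul_assoc, smul_comm, e2, smul_smul]
  rw [hCH, mul_sub, mul_smul_comm, mul_smul_comm, mul_one, e2, smul_sub, smul_smul, smul_smul,
    ← sub_eq_zero, ← sub_smul, ← sub_smul] at e3
  have e4 := (smul_eq_zero.mp e3).resolve_right hN
  exact sq_eq_sq_iff_eq_or_eq_neg.mp (by linear_combination e4)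

end FermatAgent.BAD.NewRep
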